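import Fermat.Agent.RIB.Ctrl.Kap.Defs

/-!
# RIB / CTRL / Kap : the reductions on the three components have values in `C.Fb`   (WP KAP-RED3)
-/

set_option autoImplicit false
set_option linter.unusedSectionVars false

noncomputable section

open AlgebraicCurve ModularCurve

namespace Fermat.Agent.RIB

open Fermat.Agent.S36 Fermat.Agent.S24 Fermat.Agent.RED.Gauss
open Fermat.Agent.RED (GQ)

variable (C : S36.Ctx)

/-- `gv_valuation_lt_one_iff` -/
theorem redsTo_zero_of_val_lt (l : Fin 3) {z : C.F} (hz : (C.O3 l).valuation z < 1) :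
    RedsTo C.π (C.e3 l z) 0 :=
  (gv_valuation_lt_one_iff C.hπ (C.disc3 l)).1 hz

/-- residue degree one, uniformly : approximation by `C.a (gT l) u`. -/
theorem exists_approx_gT (l : Fin 3) {g : C.F} (hg : g ∈ C.O3 l) :
    ∃ u ∈ C.O1, (C.O3 l).valuation (g - C.a (gT l) u) < 1 := by
  fin_cases l
  · exact C.res₀ 0 (by decide) g hg
  · exact C.res₀ 1 (by decide) g hg
  · exact C.res₂ 2 (by decide) g hg

/-- residue degree one: `C.res₀`, `C.res₂`, `C.redsTo_e3_gT`, `C.red1_mem`. -/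
theorem exists_redsTo_Fb (l : Fin 3) {g : C.F} (hg : g ∈ C.O3 l) :
    ∃ w : C.Fb, RedsTo C.π (C.e3 l g) (w : LaurentSeries C.k) := by
  obtain ⟨u, hu, h⟩ := exists_approx_gT C l hg
  refine ⟨⟨C.red1 ⟨u, hu⟩, C.red1_mem _⟩, ?_⟩
  have h1 := redsTo_zero_of_val_lt C l h
  have h2 := C.redsTo_e3_gT l (C.redsTo_of_mem_O1 hu)
  have h3 := h1.add h2
  rw [← map_add, sub_add_cancel, zero_add] at h3
  exact h3

/-- `C.exists_red1_eq`, `C.redsTo_e3_gT`. -/
theorem exists_lift_e3 (l : Fin 3) (w : C.Fb) :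
    ∃ g : C.F, RedsTo C.π (C.e3 l g) (w : LaurentSeries C.k) := by
  obtain ⟨⟨y, hy⟩, h⟩ := C.exists_red1_eq w.2
  refine ⟨C.a (gT l) y, ?_⟩
  have h2 := C.redsTo_e3_gT l (C.redsTo_of_mem_O1 hy)
  rw [h] at h2
  exact h2

/-- the reduction of a constant is a constant. -/
theorem exists_redsTo_const (l : Fin 3) (r : C.R) :
    ∃ c : C.k, RedsTo C.π (C.e3 l (algebraMap C.R C.F r)) (algebraMap C.k (LaurentSeries C.k) c) ∧
      (IsUnit r → c ≠ 0) := by
  have hmem : ∀ r : C.R, algebraMap C.K Kb (r : C.K) ∈ C.A := fun r =>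
    (C.A.valuation_le_one_iff _).1 (mem_RK.1 r.2)
  refine ⟨C.π ⟨algebraMap C.K Kb (r : C.K), hmem r⟩, ?_, ?_⟩
  · rw [algebraMap_RK_F0, C.e3_const]
    have h := redsTo_C (π := C.π) ⟨algebraMap C.K Kb (r : C.K), hmem r⟩
    rw [algebraMap_laurentSeries_eq_single]
    exact h
  · rintro ⟨u, rfl⟩ h0
    have h1 : (⟨algebraMap C.K Kb ((u : C.R) : C.K), hmem u⟩ : C.A) *
        ⟨algebraMap C.K Kb (((u⁻¹ : C.Rˣ) : C.R) : C.K), hmem _⟩ = 1 := by
      apply Subtype.ext
      show algebraMap C.K Kb ((u : C.R) : C.K) * algebraMap C.K Kb (((u⁻¹ : C.Rˣ) : C.R) : C.K) = 1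
      rw [← map_mul]
      have : ((u : C.R) : C.K) * (((u⁻¹ : C.Rˣ) : C.R) : C.K) = 1 := by
        have := congrArg (Subtype.val) (u.mul_inv)
        exact this
      rw [this, map_one]
    have h2 := congrArg C.π h1
    rw [map_mul, h0, zero_mul, map_one] at h2
    exact zero_ne_one h2

end Fermat.Agent.RIB
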