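import Fermat.Agent.RIB.Ctrl.Kap.Defs

/-!
# RIB / CTRL / Kap : `KRel m w 0` means that `w` is an `m`-th power   (WP KAP-REL-ZERO)
-/

set_option autoImplicit false
set_option linter.unusedSectionVars false

noncomputable section

open AlgebraicCurve ModularCurve

namespace Fermat.Agent.RIB

open Fermat.Agent.S36 Fermat.Agent.S24 Fermat.Agent.RED.Gauss
open Fermat.Agent.RED (GQ)

variable {C : S36.Ctx} {m : ℕ}

/-- `[E] = red 0 = 0`, so `E = div u`; `div (w / u ^ m) = 0`, so `w = c u ^ m` with `c ∈ kˣ` (a function without zeros and poles is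
constant: `Cusp.isSepParam_jb C.M C.k C.q C.hqM` is a separating parameter of `C.Fb`), and `c` is an `m`-th power (`k` is
algebraically closed). -/
theorem KRel.exists_pow (hm : m ≠ 0) {w : C.Fb} (h : KRel C m w 0) :
    ∃ u : C.Fb, u ≠ 0 ∧ w = u ^ m := by
  have hxb : RED.IsSepParam C.k (RED.Cusp.jb C.k C.M) := RED.Cusp.isSepParam_jb C.M C.k C.q C.hqM
  obtain ⟨-, hw, E, hE, hy⟩ := h
  rw [map_zero, eq_comm, RED.TorsES.mk_eq_zero_iff] at hy
  obtain ⟨u, hu0, hu⟩ := hy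
  have hord : ∀ Q : Place C.k C.Fb, Q.ord (w / u ^ m) = 0 := by
    intro Q
    rw [div_eq_mul_inv, Q.ord_mul hw (inv_ne_zero (pow_ne_zero m hu0)), Place.ord_inv,
      Place.ord_pow, ← hE, hu]
    ring
  obtain ⟨c, hc⟩ := hxb.mem_range_of_forall_ord_nonneg (f := w / u ^ m) fun Q => (hord Q).ge
  have hc0 : c ≠ 0 := by
    rintro rfl
    rw [map_zero] at hc
    exact div_ne_zero hw (pow_ne_zero m hu0) hc.symm
  obtain ⟨d, hd⟩ := IsAlgClosed.exists_pow_nat_eq c (Nat.pos_of_ne_zero hm)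
  have hd0 : d ≠ 0 := by
    rintro rfl
    rw [zero_pow hm] at hd
    exact hc0 hd.symm
  refine ⟨algebraMap C.k C.Fb d * u, mul_ne_zero (by rw [Ne, map_eq_zero]; exact hd0) hu0, ?_⟩
  rw [mul_pow, ← map_pow, hd, hc, div_mul_cancel₀ _ (pow_ne_zero m hu0)]

end Fermat.Agent.RIB
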