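import Fermat.Agent.RIB.Ctrl.Kap.Defs
import Fermat.Agent.Cheb.Cyclo

/-!
# RIB / CTRL / Kap : small consequences of `IsSig` / `ModSig`   (WP KAP-SIGVAL)
-/

set_option autoImplicit false
set_option linter.unusedSectionVars false

noncomputable section

open AlgebraicCurve ModularCurve

namespace Fermat.Agent.RIB

open Fermat.Agent.S36 Fermat.Agent.S24 Fermat.Agent.RED.Gauss
open Fermat.Agent.RED (GQ)

section Abs

variable {R K F : Type*} [CommRing R] [IsDomain R] [IsDiscreteValuationRing R]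
    [Field K] [Algebra R K] [IsFractionRing R K]
    [Field F] [CharZero F] [Algebra R F] [Algebra K F] [IsScalarTower R K F]
    {D : GeomDatum R K F} {Sg : F ≃+* F} {SgR : R ≃+* R}

/-- `Sg` preserves `O i`, whose value group is `ℤ` (`D.isUnif i`): `g = ϖ ^ n * unit`, `Sg ϖ = ϖ ^ k * unit` with `k ≥ 1`, the same for
`Sg⁻¹`, so `k = 1`. -/
theorem IsSig.val_div (H : IsSig D Sg SgR) (i : Fin 3) {g : F} (hg : g ≠ 0) :
    (D.O i).valuation (Sg g / g) = 1 := by
  have U := D.isUnif i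
  have hϖ0 : (D.O i).valuation (D.ϖ i) ≠ 0 := U.val_ne_zero
  -- `Sg` preserves the valuation of the uniformizer
  have h1 : (D.O i).valuation (Sg (D.ϖ i)) ≤ (D.O i).valuation (D.ϖ i) :=
    U.chart_le_of_lt_one (H.val_lt i U.lt_one)
  have h2 : (D.O i).valuation (Sg.symm (D.ϖ i)) ≤ (D.O i).valuation (D.ϖ i) := by
    refine U.chart_le_of_lt_one (val_lt_one_of_ringEquiv Sg.symm (fun x hx => ?_) U.lt_one)
    have := (H.map_O i (Sg.symm x)).2 hx
    rwa [RingEquiv.apply_symm_apply] at this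
  have h3 : (D.O i).valuation (D.ϖ i) ≤ (D.O i).valuation (Sg (D.ϖ i)) := by
    have h4 : (D.O i).valuation (Sg.symm (D.ϖ i) / D.ϖ i) ≤ 1 := by
      rw [map_div₀]
      exact div_le_one_of_le₀ h2 zero_le
    have h5 := H.val_le i h4
    rw [map_div₀, RingEquiv.apply_symm_apply, map_div₀] at h5
    have h6 : (D.O i).valuation (Sg (D.ϖ i)) ≠ 0 := by
      rw [Valuation.ne_zero_iff, Ne, map_eq_zero_iff _ Sg.injective]
      exact U.ne_zero
    exact (div_le_one₀ (zero_lt_iff.2 h6)).1 h5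
  have hϖ : (D.O i).valuation (Sg (D.ϖ i)) = (D.O i).valuation (D.ϖ i) := le_antisymm h1 h3
  obtain ⟨n, hn⟩ := U.disc g hg
  have hu : (D.O i).valuation (g / D.ϖ i ^ n) = 1 := by
    rw [map_div₀, map_zpow₀, hn]
    exact div_self (zpow_ne_zero _ hϖ0)
  have hSu := val_eq_one_of_ringEquiv (V := D.O i) (V' := D.O i) Sg
    (fun x hx => (H.map_O i x).2 hx) hu
  rw [map_div₀, map_zpow₀, map_div₀, map_zpow₀, hϖ] at hSu
  have hSg : (D.O i).valuation (Sg g) = (D.O i).valuation (D.ϖ i) ^ n :=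
    (div_eq_one_iff_eq (zpow_ne_zero _ hϖ0)).1 hSu
  rw [map_div₀, hSg, hn]
  exact div_self (zpow_ne_zero _ hϖ0)

end Abs

variable {C : S36.Ctx} {h49 : Fermat.Agent.RED.aux C.q ∣ C.M} {s : GQ}
  {hs : s ∈ C.A.decompositionSubgroup ℚ}

/-- `Cheb.apply_rootOfUnity_of_isFrobeniusAt` + `ModSig.sR_coe` (injectivity of `C.R → ℚbar`). -/
theorem ModSig.sR_root (S : ModSig C h49 s hs) (hFr : C.A.IsFrobeniusAt s C.q) {m : ℕ}
    (hm : m.Coprime C.q) (z : C.R) (hz : z ^ m = 1) : S.sR z = z ^ C.q := by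
  apply Subtype.ext
  apply (algebraMap C.K Kb).injective
  rw [S.sR_coe]
  have hμ : (algebraMap C.K Kb ((z : C.R) : C.K)) ^ m = 1 := by
    rw [← map_pow]
    have : ((z : C.R) : C.K) ^ m = 1 := congrArg Subtype.val hz
    rw [this, map_one]
  have hqm : ¬ C.q ∣ m := by
    intro h
    have := Nat.eq_one_of_dvd_coprimes hm h (dvd_refl _)
    exact C.hq.one_lt.ne' this
  rw [Cheb.apply_rootOfUnity_of_isFrobeniusAt C.hq C.hA hqm hFr hμ, ← map_pow]
  rfl

/-- `IsFrobeniusAt.smul_residue_eq`, `RED.resAut_apply`. -/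
theorem resHom_eq_frobenius (hFr : C.A.IsFrobeniusAt s C.q) :
    resHom C s hs = frobenius C.k C.q := by
  ext x
  show Fermat.Agent.RED.resAut C.A s hs x = x ^ C.q
  rw [Fermat.Agent.RED.resAut_apply]
  exact hFr.smul_residue_eq x

end Fermat.Agent.RIB
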