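import Fermat.Agent.RIB.Ctrl.Kap.Dict
import Fermat.Agent.RIB.Ctrl.Kap.Red3
import Fermat.Agent.RIB.Ctrl.Kap.RelZero
import Fermat.Agent.RIB.Ctrl.Kap.SigVal

/-!
# RIB / CTRL / Kap : `(K-KER)`  `Kap x 0 → s² x = q² x`
-/

set_option autoImplicit false
set_option linter.unusedSectionVars false

noncomputable section

open AlgebraicCurve ModularCurve

namespace Fermat.Agent.RIB

open Fermat.Agent.S36 Fermat.Agent.S24 Fermat.Agent.RED.Gauss
open Fermat.Agent.RED (GQ)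

variable {C : S36.Ctx} {m : ℕ}

/-- **(K-KER)** -/
theorem kap_ker {h49 : Fermat.Agent.RED.aux C.q ∣ C.M} {s : GQ}
    {hs : s ∈ C.A.decompositionSubgroup ℚ} (S : ModSig C h49 s hs)
    (hFr : C.A.IsFrobeniusAt s C.q) (hm : m.Coprime C.q) {x : JZero (C.M * C.q * C.q)}
    (h : Kap C m x 0) : s • s • x = (C.q ^ 2) • x := by
  have hm0 : m ≠ 0 := by
    rintro rfl
    rw [Nat.coprime_zero_left] at hm
    exact C.hq.one_lt.ne' hm
  obtain ⟨g, hg, hl⟩ := h
  -- roots of the reductions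
  have key : ∀ l : Fin 3, ∃ (u : C.Fb) (U : C.F), u ≠ 0 ∧
      RedsTo C.π (C.e3 l g) ((u : LaurentSeries C.k) ^ m) ∧
      RedsTo C.π (C.e3 l U) (u : LaurentSeries C.k) := by
    intro l
    obtain ⟨w, hw, hk⟩ := hl l
    obtain ⟨u, hu0, rfl⟩ := KRel.exists_pow hm0 hk
    obtain ⟨U, hU⟩ := exists_lift_e3 C l u
    exact ⟨u, U, hu0, hw, hU⟩
  choose u U hu0 hgu hU using key
  obtain ⟨V, hV⟩ := (C.geom h49).approx3 U (fun l => (hU l).1)
  have hV' : ∀ l, RedsTo C.π (C.e3 l V) (u l : LaurentSeries C.k) := by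
    intro l
    have h1 := (redsTo_zero_of_val_lt C l (hV l)).add (hU l)
    rwa [← map_add, sub_add_cancel, zero_add] at h1
  have hu0' : ∀ l, (u l : LaurentSeries C.k) ≠ 0 := fun l h0 => hu0 l (Subtype.ext h0)
  have hV0 : V ≠ 0 := by
    rintro rfl
    have := (hV' 0).unique (by rw [map_zero]; exact redsTo_zero)
    exact hu0' 0 this
  set h : C.F := g * (V⁻¹) ^ m with hh
  have hh1 : ∀ l, (C.O3 l).valuation (h - 1) < 1 := by
    intro l
    have h1 : RedsTo C.π (C.e3 l (h - 1)) 0 := by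
      have h2 := ((hgu l).mul (((hV' l).inv (hu0' l)).pow m)).sub (redsTo_one (π := C.π))
      rw [← mul_pow, mul_inv_cancel₀ (hu0' l), one_pow, sub_self] at h2
      rw [hh, map_sub, map_mul, map_pow, map_inv₀, map_one]
      exact h2
    exact RedsTo.valuation_lt_one C.hπ (C.disc3 l) h1
  have hkh : Kum m x (embF0 C.A (C.M * C.q * C.q) h) := by
    have := hg.of_eq_mul_pow (g' := h) (y := V⁻¹) (c := 1) (a := 1) one_ne_zero (inv_ne_zero hV0)
      (by rw [map_one, one_mul, pow_one])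
    rwa [one_smul] at this
  have hhor : Hor C.K m h := hor_of_kum hkh
  obtain ⟨ζ, hζ⟩ := S36.Kum.exists_primitiveRoot_R0 C.hq C.hA hm
  obtain ⟨c, z, hc, hz, e⟩ := z36 (C.geom h49) S.isSig (m := m)
    (S36.Kum.isUnit_natCast_R0 C.hq C.hA hm) ζ hζ (C.q ^ 2)
    (fun z hz => by
      show S.sR (S.sR z) = z ^ (C.q ^ 2)
      rw [S.sR_root hFr hm z hz, S.sR_root hFr hm (z ^ C.q) (by rw [← pow_mul, mul_comm, pow_mul, hz, one_pow]),
        ← pow_mul, sq])
    hh1 hhor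
  have e' : S.sF (S.sF h) = algebraMap C.K C.F (c : C.K) * h ^ (C.q ^ 2) * z ^ m := e
  have k1 : Kum m (s • s • x) (embF0 C.A (C.M * C.q * C.q) (S.sF (S.sF h))) := by
    rw [S.emb_sF, S.emb_sF]
    exact (hkh.gal_smul s).gal_smul s
  have k2 := hkh.of_eq_mul_pow (c := (c : C.K)) (a := C.q ^ 2)
    (fun h0 => hc (Subtype.ext h0)) hz e'
  exact k1.eq hm0 k2

end Fermat.Agent.RIB
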