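import Fermat.Agent.RIB.Ctrl.Kap.Defs
import Fermat.Agent.RIB.Key.H90
import Fermat.Agent.S36.Kum.Main

/-!
# RIB / CTRL / Kap : the Kummer dictionary over `K = ℚbar ^ I_A`   (WP KAP-DICT)

`F0 A N = laurentBaseChange (KK A) _` and `KK A` is a type synonym of `↥(K0 A)`: the statements of `S36/Kum` for
`E := K0 A` transfer by `exact` (see `S36/Kum/Final.lean`, `kum36_of_datum`); `embF0 A N g` and
`S36.Kum.bcEmb (algebraMap (K0 A) Kb) _ g` are equal by `rfl` / `Subtype.ext rfl`.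
-/

set_option autoImplicit false
set_option linter.unusedSectionVars false

noncomputable section

open AlgebraicCurve ModularCurve

namespace Fermat.Agent.RIB

open Fermat.Agent.S36 Fermat.Agent.S24 Fermat.Agent.RED.Gauss
open Fermat.Agent.RED (GQ)

variable (A : ValuationSubring Kb) (N : ℕ) [NeZero N] {m : ℕ}

/-- `RIB.Key.exists_fixed_isDiv` with `H := I_A` + `S36.exists_embF0_eq` (`S36.mem_K0`). -/
theorem exists_kum_F0 (hm : m ≠ 0) (x : JZero N) (hx : m • x = 0)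
    (hI : ∀ τ ∈ A.inertiaSubgroupIn ℚ, τ • x = x) : ∃ g : F0 A N, Kum m x (embF0 A N g) := by
  obtain ⟨D, f, hD, hDf, hf, -⟩ := Key.exists_fixed_isDiv N (A.inertiaSubgroupIn ℚ) hm x hx hI
  obtain ⟨g, hg⟩ := (mem_range_embF0_iff A N f).2 hf
  exact ⟨g, D, hD, hg ▸ hDf⟩

variable {A N}

/-- `S36.Kum.hor_of_forall_place`. -/
theorem hor_of_kum {x : JZero N} {g : F0 A N} (h : Kum m x (embF0 A N g)) : Hor (KK A) m g := by
  obtain ⟨D, -, hD⟩ := h
  have hg : g ≠ 0 := fun h0 => hD.1 (by rw [h0, map_zero])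
  exact S36.Kum.hor_of_forall_place (K0 A) N m g hg
    (fun P => ⟨(D : Divisor Kb (FN N)) P, (hD.2 P).symm⟩)

/-- `TorsES.IsDiv.smul`, `SemilinearAut.pic0_smul_mk`, `galois_smul_pic0_def`. -/
theorem Kum.gal_smul {x : JZero N} {f : FN N} (h : Kum m x f) (σ : GQ) :
    Kum m (σ • x) (SS.gal N σ • f) := by
  obtain ⟨D, rfl, hD⟩ := h
  exact ⟨SemilinearAut.degZeroSMulHom (SS.gal N σ) D, rfl, hD.smul (SS.gal N σ)⟩

/-- `embF0 g` is fixed by inertia; `Kum.gal_smul`, `Kum.eq`. -/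
theorem Kum.inertia_fixed (hm : m ≠ 0) {x : JZero N} {g : F0 A N} (h : Kum m x (embF0 A N g)) :
    ∀ τ ∈ A.inertiaSubgroupIn ℚ, τ • x = x := by
  intro τ hτ
  have h1 := h.gal_smul τ
  have e : SS.gal N τ • embF0 A N g = embF0 A N g := smul_embF0 A N hτ g
  rw [e] at h1
  exact h1.eq hm h

/-- `D` principal `= div b`, so `embF0 g = c b ^ m` over `ℚbar` (`S36.Kum.exists_eq_mul_pow_of_ord_eq`), `c` is an `m`-th power;
descent: `S36.Kum.exists_root_desc`. -/
theorem exists_root_of_kum_zero (hm : m ≠ 0) {g : F0 A N}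
    (h : Kum m (0 : JZero N) (embF0 A N g)) :
    ∃ (c : KK A) (y : F0 A N), c ≠ 0 ∧ y ≠ 0 ∧ g = algebraMap (KK A) (F0 A N) c * y ^ m := by
  have hg0 : g ≠ 0 := fun h0 => h.ne_zero (by rw [h0, map_zero])
  obtain ⟨D, hD0, hD⟩ := h
  rw [RED.TorsES.mk_eq_zero_iff] at hD0
  obtain ⟨b, hb0, hb⟩ := hD0
  obtain ⟨c', hc'⟩ := S36.Kum.exists_eq_mul_pow_of_ord_eq N hm hD.1 (pow_ne_zero m hb0)
    (fun P => by rw [S24.Place.ord_pow, ← hD.2 P, hb P])
  have hh : embF0 A N g = (b * algebraMap Kb (FN N) c') ^ m := by rw [hc', mul_pow]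
  obtain ⟨c, y, hcy⟩ : ∃ (c : KK A) (y : F0 A N), g = algebraMap (KK A) (F0 A N) c * y ^ m :=
    S36.Kum.exists_root_desc (A.inertiaSubgroupIn ℚ) (K0 A) (fun x hx => mem_K0.mpr hx)
      (modularFunctionFieldFull N) hm g (b * algebraMap Kb (FN N) c') hh
  refine ⟨c, y, ?_, ?_, hcy⟩
  · rintro rfl
    exact hg0 (by rw [hcy, map_zero, zero_mul])
  · rintro rfl
    exact hg0 (by rw [hcy, zero_pow hm, mul_zero])

/-- constants and `m`-th powers do not change the class (over `ℚbar`). -/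
theorem Kum.const_mul_mul_pow {x : JZero N} {f u : FN N} {c : Kb} (h : Kum m x f) (hc : c ≠ 0)
    (hu : u ≠ 0) : Kum m x (algebraMap Kb (FN N) c * f * u ^ m) := by
  obtain ⟨D, rfl, hD⟩ := h
  have : HasPrincipalDivisors Kb (FN N) :=
    (GAL.HeckeInputs.isFiniteParam_jF N).hasPrincipalDivisors
  obtain ⟨B, hB, hB0⟩ := HasPrincipalDivisors.exists_divisor (K := Kb) u hu
  have hc0 : algebraMap Kb (FN N) c ≠ 0 := by simpa using hc
  refine ⟨D + ⟨B, hB0⟩, ?_, mul_ne_zero (mul_ne_zero hc0 hD.1) (pow_ne_zero m hu), fun P => ?_⟩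
  · have h0 : Pic0.mk (⟨B, hB0⟩ : Divisor.degZero (K := Kb) (F := FN N)) = 0 := by
      rw [RED.TorsES.mk_eq_zero_iff]
      exact ⟨u, hu, hB⟩
    have h1 : Pic0.mk (D + ⟨B, hB0⟩) = Pic0.mk D + Pic0.mk ⟨B, hB0⟩ := rfl
    rw [h1, h0, add_zero]
  · show (m : ℤ) * ((D : Divisor Kb (FN N)) + B) P = _
    rw [Finsupp.add_apply, mul_add, hD.2 P, hB P, P.ord_mul (mul_ne_zero hc0 hD.1)
      (pow_ne_zero m hu), P.ord_mul hc0 hD.1, S24.Place.ord_pow, RED.TorsES.ord_algebraMap,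
      zero_add]

/-- constants and `m`-th powers do not change the class. -/
theorem Kum.of_eq_mul_pow {x : JZero N} {g g' y : F0 A N} {c : KK A} {a : ℕ}
    (h : Kum m x (embF0 A N g)) (hc : c ≠ 0) (hy : y ≠ 0)
    (e : g' = algebraMap (KK A) (F0 A N) c * g ^ a * y ^ m) : Kum m (a • x) (embF0 A N g') := by
  have hc' : algebraMap (KK A) Kb c ≠ 0 := by simpa using hc
  have hy' : embF0 A N y ≠ 0 := by simpa using hy
  have h1 := (h.nsmul a).const_mul_mul_pow hc' hy'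
  rw [e, map_mul, map_mul, map_pow, map_pow, embF0_algebraMap]
  exact h1

/-- `Kum.pull` twice, `S36.embF0_alpha`, `S36.embF0_beta`; `iot`, `C.a` are defined by the same composites. -/
theorem Kum.iot (C : S36.Ctx) {v : JZero C.M} {f : C.FM} (h : Kum m v (embF0 C.A C.M f))
    (i : Fin 3) : Kum m (iot C.M C.q i v) (embF0 C.A (C.M * C.q * C.q) (C.a i f)) := by
  fin_cases i
  · show Kum m (pullA (C.M * C.q) C.q (pullA C.M C.q v))
      (embF0 C.A (C.M * C.q * C.q) (C.α (C.α' f)))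
    rw [embF0_alpha, embF0_alpha]
    exact (h.pull _ _ _).pull _ _ _
  · show Kum m (pullA (C.M * C.q) C.q (pullB C.M C.q v))
      (embF0 C.A (C.M * C.q * C.q) (C.α (C.β' f)))
    rw [embF0_alpha, embF0_beta]
    exact (h.pull _ _ _).pull _ _ _
  · show Kum m (pullB (C.M * C.q) C.q (pullB C.M C.q v))
      (embF0 C.A (C.M * C.q * C.q) (C.β (C.β' f)))
    rw [embF0_beta, embF0_beta]
    exact (h.pull _ _ _).pull _ _ _

end Fermat.Agent.RIB
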