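import Fermat.Agent.RIB.Ctrl.Kap.Defs
import Fermat.Agent.S18

/-!
# RIB / CTRL / Kap : `KRel` determines the class (S18)   (WP KAP-REL-INJ)
-/

set_option autoImplicit false
set_option linter.unusedSectionVars false

noncomputable section

open AlgebraicCurve ModularCurve

namespace Fermat.Agent.RIB

open Fermat.Agent.S36 Fermat.Agent.S24 Fermat.Agent.RED.Gauss
open Fermat.Agent.RED (GQ)

variable {C : S36.Ctx} {m : ℕ}

/-- `m E = div w = m E'` gives `E = E'`, so `red (y - y') = 0`, `m (y - y') = 0`: `S18.result`. -/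
theorem KRel.unique (hR : ReductionInputsModL C.A C.M) (hm : m.Coprime C.q) {w : C.Fb}
    {y y' : JZero C.M} (h : KRel C m w y) (h' : KRel C m w y') : y = y' := by
  obtain ⟨hy, _, E, hE, hred⟩ := h
  obtain ⟨hy', _, E', hE', hred'⟩ := h'
  have hqm : ¬ C.q ∣ m := fun hd => C.hq.one_lt.ne' (Nat.eq_one_of_dvd_coprimes hm hd dvd_rfl)
  have hm0 : (m : ℤ) ≠ 0 := by
    intro h0
    exact hqm (by rw [Int.natCast_eq_zero.1 h0]; exact dvd_zero _)
  have hEE : E = E' := by
    apply Subtype.ext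
    ext Q
    exact mul_left_cancel₀ hm0 ((hE Q).trans (hE' Q).symm)
  have h0 : y - y' = 0 :=
    Fermat.Agent.S18.result C.M C.hqM C.A C.hA hR m hqm (y - y')
      (by rw [nsmul_sub, hy, hy', sub_zero]) (by rw [map_sub, hred, hred', hEE, sub_self])
  exact sub_eq_zero.1 h0

/-- `m E = div (u ^ m)` gives `E = div u`, so `red y = 0`: `S18.result`. -/
theorem KRel.eq_zero_of_pow (hR : ReductionInputsModL C.A C.M) (hm : m.Coprime C.q) {u : C.Fb}
    {y : JZero C.M} (h : KRel C m (u ^ m) y) : y = 0 := by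
  obtain ⟨hy, hw, E, hE, hred⟩ := h
  have hsep := Fermat.Agent.RED.Cusp.isSepParam_jb C.M C.k C.q C.hqM
  have hqm : ¬ C.q ∣ m := fun hd => C.hq.one_lt.ne' (Nat.eq_one_of_dvd_coprimes hm hd dvd_rfl)
  have hm0 : (m : ℤ) ≠ 0 := by
    intro h0
    exact hqm (by rw [Int.natCast_eq_zero.1 h0]; exact dvd_zero _)
  have hu : u ≠ 0 := by
    rintro rfl
    apply hw
    rw [zero_pow]
    exact_mod_cast hm0
  have hEu : (E : Divisor C.k C.Fb) = Fermat.Agent.RED.dv C.k u := by
    ext Q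
    apply mul_left_cancel₀ hm0
    rw [hE Q, hsep.dv_apply, ← zpow_natCast, Place.ord_zpow]
  have hE0 : Pic0.mk E = 0 := by
    refine (QuotientAddGroup.eq_zero_iff _).2 ?_
    rw [AddSubgroup.mem_addSubgroupOf, hEu]
    exact hsep.isPrincipal_dv hu
  exact Fermat.Agent.S18.result C.M C.hqM C.A C.hA hR m hqm y hy (by rw [hred, hE0])

end Fermat.Agent.RIB
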