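import Fermat.Agent.RIB.Ctrl.Kap.Dict
import Fermat.Agent.RIB.Ctrl.Kap.Red3
import Fermat.Agent.RIB.Ctrl.Kap.RelInj

/-!
# RIB / CTRL / Kap : `(K-INJ)`  `Kap 0 y → y = 0`
-/

set_option autoImplicit false
set_option linter.unusedSectionVars false

noncomputable section

open AlgebraicCurve ModularCurve

namespace Fermat.Agent.RIB

open Fermat.Agent.S36 Fermat.Agent.S24 Fermat.Agent.RED.Gauss
open Fermat.Agent.RED (GQ)

variable {C : S36.Ctx} {m : ℕ}

/-- `q` is a uniformizer on the component `0`. -/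
theorem isUnif_q_O3_zero (h49 : Fermat.Agent.RED.aux C.q ∣ C.M) :
    IsUnif (C.O3 0) (algebraMap C.R C.F ((C.q : ℕ) : C.R)) := by
  have h1 : IsUnif (C.O3 0) ((C.geom h49).ϖ 0) := (C.geom h49).isUnif 0
  have h2 : (C.O3 0).valuation (C.q : C.F) = (C.O3 0).valuation ((C.geom h49).ϖ 0) ^ 1 :=
    (C.geom h49).val_q 0
  rw [pow_one] at h2
  rw [map_natCast]
  refine ⟨by rw [h2]; exact h1.lt_one, ?_, fun x hx => ?_⟩
  · exact_mod_cast C.hq.ne_zero
  · rw [h2]
    exact h1.disc x hx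

theorem val_eq_one_of_pow {F : Type*} [Field F] {O : ValuationSubring F} {x : F} {n : ℕ}
    (hn : n ≠ 0) (h : O.valuation (x ^ n) = 1) : O.valuation x = 1 := by
  rw [map_pow] at h
  rcases lt_trichotomy (O.valuation x) 1 with h1 | h1 | h1
  · exact absurd h (pow_lt_one₀ zero_le h1 hn).ne
  · exact h1
  · exact absurd h (one_lt_pow₀ h1 hn).ne'

/-- the reduction of a constant times an `m`-th power is an `m`-th power. -/
theorem exists_pow_of_redsTo (h49 : Fermat.Agent.RED.aux C.q ∣ C.M) (hm : m ≠ 0) {g y : C.F}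
    {c : C.K} (e : g = algebraMap C.K C.F c * y ^ m) (hv : ∀ i, (C.O3 i).valuation g = 1)
    (l : Fin 3) {w : C.Fb} (hw : RedsTo C.π (C.e3 l g) (w : LaurentSeries C.k)) :
    ∃ u : C.Fb, w = u ^ m := by
  obtain ⟨c', y', hc', -, e'⟩ := normalise_aux (R := C.R) (K := C.K) (fun _ : Unit => C.O3 0) C.irr
    (fun _ => isUnif_q_O3_zero h49) (fun _ r => (C.sys.gauss 0).const r) hm (fun _ => hv 0) e
  obtain ⟨cb, hcb, hcb0⟩ := exists_redsTo_const C l c'
  have hvc : (C.O3 l).valuation (algebraMap C.R C.F c') = 1 :=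
    val_unit_eq_one (fun r => (C.sys.gauss l).const r) hc'.unit
  have hvy : (C.O3 l).valuation y' = 1 := by
    apply val_eq_one_of_pow hm
    have := hv l
    rwa [e', map_mul, hvc, one_mul] at this
  obtain ⟨u, hu⟩ := exists_redsTo_Fb C l (((C.O3 l).valuation_le_one_iff _).1 hvy.le)
  obtain ⟨d, hd⟩ := IsAlgClosed.exists_pow_nat_eq cb (Nat.pos_of_ne_zero hm)
  refine ⟨algebraMap C.k C.Fb d * u, Subtype.ext ?_⟩
  have h1 : RedsTo C.π (C.e3 l g)
      (algebraMap C.k (LaurentSeries C.k) cb * (u : LaurentSeries C.k) ^ m) := by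
    rw [e', map_mul, map_pow]
    exact hcb.mul (hu.pow m)
  rw [hw.unique h1, ← hd, map_pow, ← mul_pow]
  rfl

/-- **(K-INJ)** -/
theorem kap_inj (h49 : Fermat.Agent.RED.aux C.q ∣ C.M) (hR : ReductionInputsModL C.A C.M)
    (hm : m.Coprime C.q) {y : Fin 3 → JZero C.M} (h : Kap C m 0 y) : y = 0 := by
  have hm0 : m ≠ 0 := by
    rintro rfl
    rw [Nat.coprime_zero_left] at hm
    exact C.hq.one_lt.ne' hm
  obtain ⟨g, hg, hl⟩ := h
  obtain ⟨c, z, -, -, e⟩ := exists_root_of_kum_zero hm0 hg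
  have hv : ∀ i, (C.O3 i).valuation g = 1 := by
    intro i
    obtain ⟨w, hw, hk⟩ := hl i
    exact RedsTo.valuation_eq_one C.hπ (C.disc3 i) hw (fun h0 => hk.2.1 (Subtype.ext h0))
  funext l
  obtain ⟨w, hw, hk⟩ := hl l
  obtain ⟨u, rfl⟩ := exists_pow_of_redsTo h49 hm0 e hv l hw
  exact hk.eq_zero_of_pow hR hm

end Fermat.Agent.RIB
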