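import Fermat.Agent.RIB.Ctrl.Kap.Defs

/-!
# RIB / CTRL / Kap : the relation `KRel` is a subgroup, stable under the decomposition group   (WP KAP-REL-ALG)
-/

set_option autoImplicit false
set_option linter.unusedSectionVars false

noncomputable section

open AlgebraicCurve ModularCurve

namespace Fermat.Agent.RIB

open Fermat.Agent.S36 Fermat.Agent.S24 Fermat.Agent.RED.Gauss
open Fermat.Agent.RED (GQ)

variable (C : S36.Ctx) {m : ℕ}

theorem KRel.one : KRel C m 1 0 := by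
  refine ⟨smul_zero _, one_ne_zero, 0, fun Q => ?_, ?_⟩
  · rw [Place.ord_one]
    show (m : ℤ) * (0 : Divisor C.k C.Fb) Q = 0
    rw [Finsupp.zero_apply, mul_zero]
  · rw [map_zero]
    rfl

variable {C}

theorem KRel.mul {w w' : C.Fb} {y y' : JZero C.M} (h : KRel C m w y) (h' : KRel C m w' y') :
    KRel C m (w * w') (y + y') := by
  obtain ⟨hm, hw, E, hE, hy⟩ := h
  obtain ⟨hm', hw', E', hE', hy'⟩ := h'
  refine ⟨by rw [nsmul_add, hm, hm', add_zero], mul_ne_zero hw hw', E + E', fun Q => ?_, ?_⟩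
  · rw [Q.ord_mul hw hw', ← hE, ← hE']
    show (m : ℤ) * ((E : Divisor C.k C.Fb) + (E' : Divisor C.k C.Fb)) Q = _
    rw [Finsupp.add_apply, mul_add]
  · rw [map_add, hy, hy']
    rfl

theorem KRel.inv {w : C.Fb} {y : JZero C.M} (h : KRel C m w y) : KRel C m w⁻¹ (-y) := by
  obtain ⟨hm, hw, E, hE, hy⟩ := h
  refine ⟨by rw [show m • -y = -(m • y) from (neg_nsmul y m).symm ▸ rfl, hm, neg_zero], inv_ne_zero hw, -E, fun Q => ?_, ?_⟩
  · rw [Place.ord_inv, ← hE]
    show (m : ℤ) * (-(E : Divisor C.k C.Fb)) Q = _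
    rw [Finsupp.neg_apply, mul_neg]
  · rw [map_neg, hy]
    rfl

theorem KRel.pow {w : C.Fb} {y : JZero C.M} (h : KRel C m w y) (n : ℕ) :
    KRel C m (w ^ n) (n • y) := by
  obtain ⟨hm, hw, E, hE, hy⟩ := h
  refine ⟨by rw [smul_comm, hm, smul_zero], pow_ne_zero n hw, n • E, fun Q => ?_, ?_⟩
  · rw [Place.ord_pow, ← hE]
    show (m : ℤ) * (n • (E : Divisor C.k C.Fb)) Q = _
    rw [Finsupp.smul_apply, nsmul_eq_mul]
    ring
  · rw [map_nsmul, hy]
    rfl

/-- `RED.reductionModL_smul` + `SemilinearAut.ord_smul`, `SemilinearAut.pic0_smul_mk`. -/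
theorem KRel.smul (hR : ReductionInputsModL C.A C.M) {w : C.Fb} {y : JZero C.M}
    (h : KRel C m w y) (s : GQ) (hs : s ∈ C.A.decompositionSubgroup ℚ) :
    KRel C m (Fermat.Agent.RED.coeffAut C.k C.M (Fermat.Agent.RED.resAut C.A s hs) • w) (s • y) := by
  obtain ⟨hm, hw, E, hE, hy⟩ := h
  refine ⟨?_, by simpa using hw, SemilinearAut.degZeroSMulHom
    (Fermat.Agent.RED.coeffAut C.k C.M (Fermat.Agent.RED.resAut C.A s hs)) E, fun Q => ?_, ?_⟩
  · have h1 := map_nsmul (DistribSMul.toAddMonoidHom (JZero C.M) s) m y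
    rw [hm, map_zero] at h1
    exact h1.symm
  · rw [SemilinearAut.coe_degZeroSMulHom, SemilinearAut.divisor_smul_apply, hE]
    have h1 := SemilinearAut.ord_smul
      (Fermat.Agent.RED.coeffAut C.k C.M (Fermat.Agent.RED.resAut C.A s hs))
      ((Fermat.Agent.RED.coeffAut C.k C.M (Fermat.Agent.RED.resAut C.A s hs))⁻¹ • Q) w
    rw [smul_inv_smul] at h1
    exact h1.symm
  · rw [Fermat.Agent.RED.reductionModL_smul C.M C.hqM C.A C.hA hR s hs y, hy,
      SemilinearAut.pic0_smul_mk]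

end Fermat.Agent.RIB
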