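import Fermat.Agent.RIB.Ctrl.Kap.Dict
import Fermat.Agent.S18

/-!
# RIB / CTRL / Kap : Kummer generators at the level `M`   (WP KAP-REL-EX)
-/

set_option autoImplicit false
set_option linter.unusedSectionVars false

noncomputable section

open AlgebraicCurve ModularCurve

namespace Fermat.Agent.RIB

open Fermat.Agent.S36 Fermat.Agent.S24 Fermat.Agent.RED.Gauss
open Fermat.Agent.RED (GQ)

variable {C : S36.Ctx} {m : ℕ}

theorem relEx_resAut_eq_refl {A : ValuationSubring Kb} {σ : GQ}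
    (hσ : σ ∈ A.inertiaSubgroupIn ℚ) :
    ∃ h : σ ∈ A.decompositionSubgroup ℚ, Fermat.Agent.RED.resAut A σ h = RingEquiv.refl _ := by
  obtain ⟨s, hs, rfl⟩ := hσ
  refine ⟨s.2, ?_⟩
  ext x
  have := (MonoidHom.mem_ker (f := MulSemiringAction.toRingAut (A.decompositionSubgroup ℚ)
    (IsLocalRing.ResidueField A))).mp hs
  exact congrArg (fun e : RingAut (IsLocalRing.ResidueField A) => e x) this

/-- `J₀(M)[m]` is fixed by inertia: `red (τ y) = red y` (`RED.reductionModL_smul`, `resAut A τ _ = 1` for `τ ∈ I_A`), so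
`τ y - y` is an `m`-torsion point with trivial reduction: `S18.result`. -/
theorem inertia_fixed_levelM (hR : ReductionInputsModL C.A C.M) (hm : m.Coprime C.q)
    {y : JZero C.M} (hy : m • y = 0) : ∀ τ ∈ C.A.inertiaSubgroupIn ℚ, τ • y = y := by
  intro τ hτ
  obtain ⟨hD, hres⟩ := relEx_resAut_eq_refl hτ
  have h1 := Fermat.Agent.RED.reductionModL_smul C.M C.hqM C.A C.hA hR τ hD y
  rw [hres, Fermat.Agent.RED.coeffAut_refl, one_smul] at h1
  have hm' : ¬ C.q ∣ m := (Nat.Prime.coprime_iff_not_dvd C.hq).1 hm.symm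
  have h3 : m • (τ • y) = 0 := by
    have := map_nsmul (DistribSMul.toAddMonoidHom (JZero C.M) τ) m y
    rw [hy, map_zero] at this
    exact this.symm
  have h2 : τ • y - y = 0 := Fermat.Agent.S18.result C.M C.hqM C.A C.hA hR m hm' (τ • y - y)
    (by rw [nsmul_sub, h3, hy, sub_self]) (by rw [map_sub, h1, sub_self])
  exact sub_eq_zero.1 h2

/-- `exists_kum_F0`; then multiply `f` by a power of `q` to make it a unit of `C.O1` (`q` is a uniformizer of `C.O1`:
`IsDiscEmb.exists_normal` / `gv_isUnif`; `Kum.of_eq_mul_pow` with `a = 1`, `y = 1`); `C.red1_mem`. -/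
theorem exists_kum_levelM (hR : ReductionInputsModL C.A C.M) (hm : m.Coprime C.q)
    {y : JZero C.M} (hy : m • y = 0) :
    ∃ (f : C.FM) (w : C.Fb), w ≠ 0 ∧ Kum m y (embF0 C.A C.M f) ∧
      RedsTo C.π (C.e1 f) (w : LaurentSeries C.k) := by
  have hm0 : m ≠ 0 := by
    rintro rfl
    rw [Nat.coprime_zero_left] at hm
    exact C.hq.one_lt.ne' hm
  obtain ⟨g, hg⟩ := exists_kum_F0 C.A C.M hm0 y hy (inertia_fixed_levelM hR hm hy)
  have hg0 : g ≠ 0 := by
    rintro rfl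
    obtain ⟨D, -, hD⟩ := hg
    exact hD.1 (map_zero _)
  obtain ⟨n, u, hu, hured, hgu⟩ := C.disc1.exists_normal C.hπ hg0
  have hq0 : ((C.q : ℕ) : C.K) ≠ 0 := Nat.cast_ne_zero.2 C.hq.ne_zero
  set c : C.K := ((C.q : ℕ) : C.K) ^ (-n) with hc
  have hc0 : c ≠ 0 := zpow_ne_zero _ hq0
  set f : C.FM := algebraMap C.K C.FM c * g ^ 1 * 1 ^ m with hf
  have hK := Kum.of_eq_mul_pow (a := 1) (y := (1 : F0 C.A C.M)) hg hc0 one_ne_zero hf
  rw [one_smul] at hK
  have hqb : ((C.q : ℕ) : Kb) ≠ 0 := Nat.cast_ne_zero.2 C.hq.ne_zero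
  have he : C.e1 f = u := by
    rw [hf, pow_one, one_pow, mul_one, map_mul, C.e1_const, hgu, hc, map_zpow₀, map_natCast,
      ← mul_assoc, ← map_mul, ← zpow_add₀ hqb, neg_add_cancel, zpow_zero, map_one, one_mul]
  have hfO : f ∈ C.O1 := by
    show C.e1 f ∈ bigO C.π
    rw [he]; exact hu
  have hred : C.red1 ⟨f, hfO⟩ = bigRed C.π ⟨u, hu⟩ := by
    show bigRed C.π ⟨C.e1 f, hfO⟩ = _
    congr 1
    exact Subtype.ext he
  refine ⟨f, ⟨C.red1 ⟨f, hfO⟩, C.red1_mem _⟩, ?_, hK, ⟨hfO, rfl⟩⟩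
  intro h0
  apply hured
  rw [← hred]
  exact congrArg Subtype.val h0

end Fermat.Agent.RIB
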