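import Fermat.Agent.RIB.Ctrl.Kap.Defs
import Fermat.Agent.MAZ.Geo.HopfB2
import Fermat.Agent.MAZ.Geo.HeqG
import Fermat.Agent.FFG.Eval

/-!
# RIB / CTRL / Kap : the reduction of a Kummer generator at the level `M`   (WP KAP-REL-KUM)
-/

set_option autoImplicit false
set_option linter.unusedSectionVars false

noncomputable section

open AlgebraicCurve ModularCurve

namespace Fermat.Agent.RIB

open Fermat.Agent.S36 Fermat.Agent.S24 Fermat.Agent.RED.Gauss
open Fermat.Agent.RED (GQ)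

variable {C : S36.Ctx} {m : ℕ}

/-- `y = [D]`, `m D = div f`, `f` a unit for the Gauss valuation with reduction `w`.  Then `red y = [r_* D]` and
`m r_* D = r_* div f = div w` (`IsReduction.div_red` for `gaussData C.A C.M C.hA C.hqM`: `MAZ.exists_good_inertia'`,
`FFG.Good.isReduction`, `MAZ.placeReduction_eq_of_good` as in `RIB/Lift/Fixed.lean`; `(gaussData ..).O`, `.red` are `bigO`, `bigRed`
on the expansions, as `RedsTo`). -/
theorem kRel_of_kum (h49 : 4 ∣ C.M ∨ 9 ∣ C.M) (hR : ReductionInputsModL C.A C.M) {y : JZero C.M}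
    {f : C.FM} {w : C.Fb} (hf : Kum m y (embF0 C.A C.M f))
    (hw : RedsTo C.π (C.e1 f) (w : LaurentSeries C.k)) (hw0 : w ≠ 0) : KRel C m w y := by
  classical
  have hm0 := hf.nsmul_eq_zero
  obtain ⟨D, rfl, hf0, hD⟩ := hf
  obtain ⟨r, G, -, -⟩ := MAZ.exists_good_inertia' C.M C.A C.hA C.hqM h49
  have hrr : placeReductionModL hR = r :=
    MAZ.placeReduction_eq_of_good C.M C.A C.hA C.hqM (isPlaceReductionModL_placeReductionModL hR)
      hR.choose_spec.2 G
  have hred := G.isReduction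
  obtain ⟨hx, hxw⟩ := hw
  have hxO : embF0 C.A C.M f ∈ (Fermat.Agent.RED.gaussData C.A C.M C.hA C.hqM).O := hx
  have hredx : (Fermat.Agent.RED.gaussData C.A C.M C.hA C.hqM).red ⟨embF0 C.A C.M f, hxO⟩ = w :=
    Subtype.ext hxw
  have hv : (Fermat.Agent.RED.gaussData C.A C.M C.hA C.hqM).O.valuation (embF0 C.A C.M f) = 1 := by
    refine le_antisymm ((ValuationSubring.valuation_le_one_iff _ _).mpr hxO) (not_lt.mp fun hlt => ?_)
    exact hw0 (hredx ▸ (hred.ker ⟨_, hxO⟩).mpr hlt)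
  refine ⟨hm0, hw0, reductionDegZeroAlong _ (isPlaceReductionModL_placeReductionModL hR).1 D, ?_,
    reductionModL_mk hR D⟩
  intro Q
  have h1 := hred.div_red ⟨_, hxO⟩ hv ((m : ℤ) • (D : Divisor _ _)) (fun P => by
    rw [← hD P]; simp) Q
  rw [hredx] at h1
  rw [← h1, coe_reductionDegZeroAlong, hrr, Finsupp.mapDomain_smul]
  simp

end Fermat.Agent.RIB
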