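import Fermat.Agent.RIB.Ctrl.Kap.Grp
import Fermat.Agent.RIB.Ctrl.Kap.RelAlg
import Fermat.Agent.RIB.Ctrl.Kap.RelKum
import Fermat.Agent.RIB.Ctrl.Kap.RelEx
import Fermat.Agent.RIB.Ctrl.Kap.SigVal
import Fermat.Agent.RED.FrobK

/-!
# RIB / CTRL / Kap : `(K-IOTA)`  the matrix of `κ ∘ ι`
-/

set_option autoImplicit false
set_option linter.unusedSectionVars false

noncomputable section

open AlgebraicCurve ModularCurve

namespace Fermat.Agent.RIB

open Fermat.Agent.S36 Fermat.Agent.S24 Fermat.Agent.RED.Gauss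
open Fermat.Agent.RED (GQ)

variable {C : S36.Ctx} {m : ℕ}

/-- `V ^ n (Frob² w) = (Frob ^ (2 - n) w) ^ (q ^ n)` and its class. -/
theorem kRel_tab {s : GQ} {hs : s ∈ C.A.decompositionSubgroup ℚ}
    (hR : ReductionInputsModL C.A C.M) (hFr : C.A.IsFrobeniusAt s C.q) {w : C.Fb}
    {y : JZero C.M} (hk : KRel C m w y) (n : ℕ) (hn : n ≤ 2) :
    ∃ w' : C.Fb, (w' : LaurentSeries C.k) = qExpand C.k (C.q ^ n)
        (coeffMap (resHom C s hs) (coeffMap (resHom C s hs) (w : LaurentSeries C.k))) ∧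
      KRel C m w' ((C.q ^ n) • (s ^ (2 - n) • y)) := by
  have hφ : resHom C s hs = frobenius C.k C.q := resHom_eq_frobenius hFr
  set τ := Fermat.Agent.RED.coeffAut C.k C.M (Fermat.Agent.RED.resAut C.A s hs) with hτ
  have cτ : ∀ z : C.Fb, ((τ • z : C.Fb) : LaurentSeries C.k) =
      coeffMap (resHom C s hs) (z : LaurentSeries C.k) := fun z => rfl
  interval_cases n
  · refine ⟨τ • τ • w, ?_, ?_⟩
    · rw [cτ, cτ]
      exact ((qExpand_congr' (pow_zero C.q) _).trans (qExpand_one_apply _)).symm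
    · have := (hk.smul hR s hs).smul hR s hs
      rwa [pow_zero, one_smul, Nat.sub_zero, sq, mul_smul]
  · refine ⟨(τ • w) ^ C.q, ?_, ?_⟩
    · show ((τ • w : C.Fb) : LaurentSeries C.k) ^ C.q = _
      rw [cτ, Fermat.Agent.RED.FrobK.pow_char_eq C.k C.q, ← hφ]
      exact (qExpand_congr' (pow_one C.q) _).symm
    · have := (hk.smul hR s hs).pow C.q
      rwa [pow_one, show 2 - 1 = 1 from rfl, pow_one]
  · refine ⟨w ^ (C.q ^ 2), ?_, ?_⟩
    · show (w : LaurentSeries C.k) ^ (C.q ^ 2) = _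
      have e1 : (w : LaurentSeries C.k) ^ (C.q ^ 2) = ((w : LaurentSeries C.k) ^ C.q) ^ C.q := by
        rw [sq, pow_mul]
      rw [e1, Fermat.Agent.RED.FrobK.pow_char_eq C.k C.q (w : LaurentSeries C.k),
        Fermat.Agent.RED.FrobK.pow_char_eq C.k C.q, coeffMap_qExpand, qExpand_qExpand, ← hφ]
      exact qExpand_congr' (sq C.q).symm _
    · have := hk.pow (C.q ^ 2)
      rwa [Nat.sub_self, pow_zero, one_smul]

/-- one term -/
theorem kap_iota_aux {h49 : Fermat.Agent.RED.aux C.q ∣ C.M} {s : GQ}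
    {hs : s ∈ C.A.decompositionSubgroup ℚ} (S : ModSig C h49 s hs)
    (hFr : C.A.IsFrobeniusAt s C.q) (hR : ReductionInputsModL C.A C.M) (hm : m.Coprime C.q)
    (i : Fin 3) (v : JZero C.M) (hv : m • v = 0) :
    Kap C m (s • s • iot C.M C.q i v) (fun l => (C.q ^ nT l i) • (s ^ (2 - nT l i) • v)) := by
  obtain ⟨f, w, hw0, hf, hw⟩ := exists_kum_levelM hR hm hv
  have hk : KRel C m w v := kRel_of_kum (C.h49_of_aux h49) hR hf hw hw0
  refine ⟨C.a i (S.sM (S.sM f)), ?_, fun l => ?_⟩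
  · rw [← S.sF_a, ← S.sF_a, S.emb_sF, S.emb_sF]
    exact ((hf.iot C i).gal_smul s).gal_smul s
  · have hn : nT l i ≤ 2 := by fin_cases l <;> fin_cases i <;> simp [nT]
    obtain ⟨w', e, hk'⟩ := kRel_tab (hs := hs) hR hFr hk (nT l i) hn
    refine ⟨w', ?_, hk'⟩
    rw [e]
    exact C.redsTo_e3 l i (S.red_sM _ _ (S.red_sM _ _ hw))

/-- **(K-IOTA)** -/
theorem kap_iota {h49 : Fermat.Agent.RED.aux C.q ∣ C.M} {s : GQ}
    {hs : s ∈ C.A.decompositionSubgroup ℚ} (S : ModSig C h49 s hs)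
    (hFr : C.A.IsFrobeniusAt s C.q) (hR : ReductionInputsModL C.A C.M) (hm : m.Coprime C.q)
    (v : Fin 3 → JZero C.M) (hv : ∀ i, m • v i = 0) :
    Kap C m (s • s • iota C.M C.q v)
      (fun l => ∑ i, (C.q ^ nT l i) • (s ^ (2 - nT l i) • v i)) := by
  have h := Kap.add (Kap.add (kap_iota_aux S hFr hR hm 0 (v 0) (hv 0))
    (kap_iota_aux S hFr hR hm 1 (v 1) (hv 1))) (kap_iota_aux S hFr hR hm 2 (v 2) (hv 2))
  rw [iota_apply', smul_add, smul_add, smul_add, smul_add]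
  convert h using 1
  funext l
  rw [Fin.sum_univ_three]
  rfl

end Fermat.Agent.RIB
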