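import Fermat.Agent.RIB.Ctrl.Kap.Red3
import Fermat.Agent.RIB.Ctrl.ResHor

/-!
# RIB / CTRL / Kap : `[KAP-LD]`  the divisor of the reduction on each component is divisible by `m`   (WP KAP-LD)

`g ∈ F` a unit on the three components with `Hor K m g`.  Let `Q` be a place of `Fb` and `w` the reduction of `g` on the component `l`.
`V := {x ∈ O3 l | red x ∈ O_Q}` is a valuation subring of `F` containing `R`; it contains `t` or `t⁻¹`, hence the chart
`B = intCl R t` or `intCl R t⁻¹` (`V` is integrally closed).  `𝔪 := {b ∈ B | b ∈ 𝔪_V}` is a maximal ideal of `B` (`R → B/𝔪 ↪ κ(Q) = k` is onto).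
By `(C.geom h49).ld₁`/`ld₂` there is `h ≠ 0` with `h ^ m * g = s / t'`, `s, t' ∈ B \ 𝔪`, i.e. units of `V`.  So `h` is a unit of `O3 l` and
`m ord_Q (red h) + ord_Q w = 0`.

The composite valuation ring argument is `RIB.resHor` (`RIB/Ctrl/ResHor.lean`); here it is instantiated with
`ρ := red3 l : O3 l → Fb` and `W := O_Q`.
-/

set_option autoImplicit false
set_option linter.unusedSectionVars false

noncomputable section

open AlgebraicCurve ModularCurve

namespace Fermat.Agent.RIB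

open Fermat.Agent.S36 Fermat.Agent.S24 Fermat.Agent.RED.Gauss
open Fermat.Agent.RED (GQ)

variable (C : S36.Ctx)

/-- the reduction on the component `l` has values in `Fb` -/
theorem ld_red3_mem_Fb (l : Fin 3) (x : C.O3 l) : C.red3 l x ∈ C.Fb := by
  obtain ⟨w, hw⟩ := exists_redsTo_Fb C l x.2
  have h : C.red3 l x = (w : LaurentSeries C.k) := hw.gvRed_eq C.hπ (C.disc3 l) x.2
  rw [h]
  exact w.2

/-- the reduction on the component `l`, with values in `Fb` -/
def ldRed (l : Fin 3) : C.O3 l →+* C.Fb := (C.red3 l).codRestrict C.Fb (ld_red3_mem_Fb C l)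

theorem coe_ldRed (l : Fin 3) (x : C.O3 l) :
    ((ldRed C l x : C.Fb) : LaurentSeries C.k) = C.red3 l x := rfl

theorem ldRed_eq_of_redsTo (l : Fin 3) {g : C.F} {w : C.Fb}
    (hw : RedsTo C.π (C.e3 l g) (w : LaurentSeries C.k)) (hg : g ∈ C.O3 l) :
    ldRed C l ⟨g, hg⟩ = w :=
  Subtype.ext (hw.gvRed_eq C.hπ (C.disc3 l) hg)

theorem ldRed_eq_zero_iff (l : Fin 3) (x : C.O3 l) :
    ldRed C l x = 0 ↔ (C.O3 l).valuation (x : C.F) < 1 := by
  constructor
  · intro h
    refine (gv_valuation_lt_one_iff C.hπ (C.disc3 l)).2 ⟨x.2, ?_⟩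
    have h' : C.red3 l x = 0 := congrArg (fun z : C.Fb => (z : LaurentSeries C.k)) h
    exact h'
  · intro h
    obtain ⟨hx, h0⟩ := (gv_valuation_lt_one_iff C.hπ (C.disc3 l)).1 h
    exact Subtype.ext h0

/-- a unit of the valuation ring of a place has order zero -/
theorem ld_ord_eq_zero_of_valuation_eq_one {K F : Type*} [Field K] [Field F] [Algebra K F]
    (Q : Place K F) {x : F} (hx : Q.toValuationSubring.valuation x = 1) : Q.ord x = 0 := by
  have hmem : x ∈ Q.toValuationSubring := (Q.toValuationSubring.valuation_le_one_iff x).1 hx.le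
  have hu : IsUnit (⟨x, hmem⟩ : Q.toValuationSubring) :=
    (Q.toValuationSubring.valuation_eq_one_iff ⟨x, hmem⟩).2 hx
  obtain ⟨u, hu'⟩ := hu
  have := Q.ord_coe_unit u
  rwa [hu'] at this

theorem dvd_ord_red (h49 : Fermat.Agent.RED.aux C.q ∣ C.M) {m : ℕ} (hm : m ≠ 0) {g : C.F}
    (hg : ∀ i, (C.O3 i).valuation g = 1) (hhor : Hor C.K m g) (l : Fin 3) {w : C.Fb}
    (hw : RedsTo C.π (C.e3 l g) (w : LaurentSeries C.k)) (Q : Place C.k C.Fb) :
    (m : ℤ) ∣ Q.ord w := by
  have hconst : ∀ r : C.R, ldRed C l ⟨algebraMap C.R C.F r,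
      ((C.geom h49).sys.gauss l).const r⟩ ∈ Q.toValuationSubring := by
    intro r
    obtain ⟨c, hc, -⟩ := exists_redsTo_const C l r
    have h1 : ldRed C l ⟨algebraMap C.R C.F r, ((C.geom h49).sys.gauss l).const r⟩ =
        algebraMap C.k C.Fb c :=
      ldRed_eq_of_redsTo C l (w := algebraMap C.k C.Fb c) hc _
    rw [h1]
    exact Q.algebraMap_mem' c
  obtain ⟨hb, hb0, hval⟩ := resHor (C.geom h49) hm hg hhor l (ldRed C l)
    (ldRed_eq_zero_iff C l) Q.toValuationSubring hconst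
  have hgw : ldRed C l ⟨g, ((C.O3 l).valuation_le_one_iff g).1 (hg l).le⟩ = w :=
    ldRed_eq_of_redsTo C l hw _
  have hval' : Q.toValuationSubring.valuation (hb ^ m * w) = 1 := by
    rw [← hgw]; exact hval
  have hw0 : w ≠ 0 := by
    rintro rfl
    rw [mul_zero, map_zero] at hval'
    exact zero_ne_one hval'
  have h0 := ld_ord_eq_zero_of_valuation_eq_one Q hval'
  rw [Q.ord_mul (pow_ne_zero m hb0) hw0, ← zpow_natCast, Q.ord_zpow] at h0
  exact ⟨-Q.ord hb, by linarith⟩

end Fermat.Agent.RIB
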