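import Fermat.Agent.RIB.Ctrl.Kap.Defs

/-!
# RIB / CTRL / Kap : existence of `y` with `KRel m w y`  (from `[LIFT]`)   (WP KAP-REL-LIFT)
-/

set_option autoImplicit false
set_option linter.unusedSectionVars false

noncomputable section

open AlgebraicCurve ModularCurve

namespace Fermat.Agent.RIB

open Fermat.Agent.S36 Fermat.Agent.S24 Fermat.Agent.RED.Gauss
open Fermat.Agent.RED (GQ)

variable (C : S36.Ctx) (m : ℕ)

/-- the conclusion of `[LIFT]` (helper54, helper71: `RIB/Lift/`). -/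
def LiftTors : Prop :=
  ∀ c : JZeroC C.k C.M, m • c = 0 → ∃ x : JZero C.M, m • x = 0 ∧ reductionModL C.A C.M x = c

variable {C m}

/-- `E := div w / m` has degree `0` (`Cusp.isSepParam_jb .. |>.degree_eq_zero_of_isPrincipal`), `m [E] = 0`; lift `[E]`. -/
theorem exists_kRel_of_dvd (hL : LiftTors C m) (hm : m ≠ 0) {w : C.Fb} (hw : w ≠ 0)
    (hdvd : ∀ Q : Place C.k C.Fb, (m : ℤ) ∣ Q.ord w) : ∃ y : JZero C.M, KRel C m w y := by
  have hsep := Fermat.Agent.RED.Cusp.isSepParam_jb C.M C.k C.q C.hqM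
  have hm' : (m : ℤ) ≠ 0 := by exact_mod_cast hm
  let E : Divisor C.k C.Fb :=
    (Fermat.Agent.RED.dv C.k w).mapRange (fun n => n / (m : ℤ)) (by simp)
  have hE : ∀ Q : Place C.k C.Fb, (m : ℤ) * E Q = Q.ord w := by
    intro Q
    have h1 : E Q = Q.ord w / (m : ℤ) := by
      show (Finsupp.mapRange _ _ _) Q = _
      rw [Finsupp.mapRange_apply, hsep.dv_apply]
    rw [h1]
    exact Int.mul_ediv_cancel' (hdvd Q)
  have hmE : m • E = Fermat.Agent.RED.dv C.k w := by
    ext Q
    rw [Finsupp.smul_apply, nsmul_eq_mul, hE, hsep.dv_apply]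
  have hdeg : Divisor.degree E = 0 := by
    have h1 : Divisor.degree (m • E) = 0 := by
      rw [hmE]
      exact hsep.degree_eq_zero_of_isPrincipal (hsep.isPrincipal_dv hw)
    rw [map_nsmul, nsmul_eq_mul] at h1
    exact (mul_eq_zero.1 h1).resolve_left hm'
  let E0 : Divisor.degZero (K := C.k) (F := C.Fb) := ⟨E, Divisor.mem_degZero.2 hdeg⟩
  have hc : m • (Pic0.mk E0 : JZeroC C.k C.M) = 0 := by
    have h1 : Pic0.mk (m • E0) = 0 := by
      refine (QuotientAddGroup.eq_zero_iff _).2 ?_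
      rw [AddSubgroup.mem_addSubgroupOf]
      have h2 : ((m • E0 : Divisor.degZero (K := C.k) (F := C.Fb)) : Divisor C.k C.Fb)
          = Fermat.Agent.RED.dv C.k w := by
        rw [← hmE]
        rfl
      rw [h2]
      exact hsep.isPrincipal_dv hw
    exact h1
  obtain ⟨y, hy, hred⟩ := hL _ hc
  exact ⟨y, hy, hw, E0, hE, hred⟩

end Fermat.Agent.RIB
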