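import Fermat.Agent.RIB.Ctrl.Kap.Dict
import Fermat.Agent.RIB.Ctrl.Kap.LD
import Fermat.Agent.RIB.Ctrl.Kap.RelLift
import Fermat.Agent.RIB.Ctrl.Kap.SigVal

/-!
# RIB / CTRL / Kap : `(K-TOT)`  `Kap` is defined on `(s² - 1) X`
-/

set_option autoImplicit false
set_option linter.unusedSectionVars false

noncomputable section

open AlgebraicCurve ModularCurve

namespace Fermat.Agent.RIB

open Fermat.Agent.S36 Fermat.Agent.S24 Fermat.Agent.RED.Gauss
open Fermat.Agent.RED (GQ)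

variable {C : S36.Ctx} {m : ℕ}

/-- **(K-TOT)** -/
theorem kap_tot {h49 : Fermat.Agent.RED.aux C.q ∣ C.M} {s : GQ}
    {hs : s ∈ C.A.decompositionSubgroup ℚ} (S : ModSig C h49 s hs) (hL : LiftTors C m)
    (hm : m ≠ 0) (x : JZero (C.M * C.q * C.q)) (hx : m • x = 0)
    (hI : ∀ τ ∈ C.A.inertiaSubgroupIn ℚ, τ • x = x) :
    ∃ y : Fin 3 → JZero C.M, Kap C m (s • s • x - x) y := by
  obtain ⟨g, hg⟩ := exists_kum_F0 C.A (C.M * C.q * C.q) hm x hx hI
  have hg0 : g ≠ 0 := by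
    rintro rfl
    exact hg.ne_zero (map_zero _)
  set g₁ : C.F := S.sF (S.sF g) / g with hg₁
  have hk : Kum m (s • s • x - x) (embF0 C.A (C.M * C.q * C.q) g₁) := by
    rw [hg₁, map_div₀, S.emb_sF, S.emb_sF]
    exact ((hg.gal_smul s).gal_smul s).sub hg
  have hv : ∀ i, (C.O3 i).valuation g₁ = 1 := fun i => S.isSig.val_div i hg0
  have hhor : Hor C.K m g₁ := hor_of_kum hk
  have key : ∀ l : Fin 3, ∃ y : JZero C.M, ∃ w : C.Fb,
      RedsTo C.π (C.e3 l g₁) (w : LaurentSeries C.k) ∧ KRel C m w y := by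
    intro l
    obtain ⟨w, hw⟩ := exists_redsTo_Fb C l (((C.O3 l).valuation_le_one_iff _).1 (hv l).le)
    have hw0 : w ≠ 0 := by
      rintro rfl
      have := RedsTo.valuation_lt_one C.hπ (C.disc3 l) hw
      exact absurd (hv l) this.ne
    obtain ⟨y, hy⟩ := exists_kRel_of_dvd hL hm hw0 (dvd_ord_red C h49 hm hv hhor l hw)
    exact ⟨y, w, hw, hy⟩
  choose y hy using key
  exact ⟨y, g₁, hk, hy⟩

end Fermat.Agent.RIB
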