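import Fermat.Agent.S36.Mod.Inst
import Fermat.Agent.S36.F0.CtxM
import Fermat.Agent.RIB.Ctrl.Z36
import Fermat.Agent.RIB.Deg
import Fermat.Agent.RIB.Deg.Kum
import Fermat.Agent.RED.S37.GalEq
import Fermat.Agent.SS.Mod.Compat

/-!
# RIB / CTRL / Kap : definitions

`C : S36.Ctx` : `A | q`, level `M` (`q ∤ M`, rigid), `K = ℚbar ^ I_A`, `FM`, `F` the function fields of `X₀(M)`, `X₀(M q²)` over `K`,
`Fb = C.Fb` the function field of `X₀(M)` over the residue field `k` of `A`.

* `KRel C m w y` : `y ∈ J₀(M)[m]`, `w ∈ Fbˣ`, `div w = m E`, `red y = [E]`.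
* `Kap C m x y`  : `x ∈ J₀(M q²)` has a Kummer generator `g ∈ F` (`m D = div g`, `x = [D]`) which is a unit on the three components
  of the special fibre and whose reduction `w_l` on the component `l` satisfies `KRel C m w_l (y l)`.
* `ModSig C h49 s hs` : the interface with `[SIG-MOD]` (the action of an element `s` of the decomposition group on the context).
-/

set_option autoImplicit false
set_option linter.unusedSectionVars false

noncomputable section

open AlgebraicCurve ModularCurve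

namespace Fermat.Agent.RIB

open Fermat.Agent.S36 Fermat.Agent.S24 Fermat.Agent.RED.Gauss
open Fermat.Agent.RED (GQ)

variable (C : S36.Ctx)

/-- `y ∈ J₀(M)[m]`, `div w = m E`, `red y = [E]`. -/
def KRel (m : ℕ) (w : C.Fb) (y : JZero C.M) : Prop :=
  m • y = 0 ∧ w ≠ 0 ∧ ∃ E : Divisor.degZero (K := C.k) (F := C.Fb),
    (∀ Q : Place C.k C.Fb, (m : ℤ) * (E : Divisor C.k C.Fb) Q = Q.ord w) ∧
      reductionModL C.A C.M y = Pic0.mk E

/-- the relation `κ` between `J₀(M q²)[m] ^ I` and `J₀(M)[m]³`. -/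
def Kap (m : ℕ) (x : JZero (C.M * C.q * C.q)) (y : Fin 3 → JZero C.M) : Prop :=
  ∃ g : C.F, Kum m x (embF0 C.A (C.M * C.q * C.q) g) ∧
    ∀ l : Fin 3, ∃ w : C.Fb, RedsTo C.π (C.e3 l g) (w : LaurentSeries C.k) ∧ KRel C m w (y l)

/-- the automorphism of the residue field induced by an element of the decomposition group, as a ring homomorphism -/
abbrev resHom (s : GQ) (hs : s ∈ C.A.decompositionSubgroup ℚ) : C.k →+* C.k :=
  (Fermat.Agent.RED.resAut C.A s hs : C.k →+* C.k)

/-- **the interface with `[SIG-MOD]`** : the action of `s ∈ D_A` on the context. -/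
structure ModSig (h49 : Fermat.Agent.RED.aux C.q ∣ C.M) (s : GQ)
    (hs : s ∈ C.A.decompositionSubgroup ℚ) where
  sR : C.R ≃+* C.R
  sM : C.FM ≃+* C.FM
  sF : C.F ≃+* C.F
  sR_coe : ∀ r : C.R, algebraMap C.K Kb ((sR r : C.R) : C.K) = s (algebraMap C.K Kb (r : C.K))
  emb_sM : ∀ u : C.FM, embF0 C.A C.M (sM u) = SS.gal C.M s • embF0 C.A C.M u
  emb_sF : ∀ g : C.F, embF0 C.A (C.M * C.q * C.q) (sF g) =
    SS.gal (C.M * C.q * C.q) s • embF0 C.A (C.M * C.q * C.q) g
  sF_a : ∀ (i : Fin 3) (u : C.FM), sF (C.a i u) = C.a i (sM u)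
  red_sM : ∀ (u : C.FM) (w : LaurentSeries C.k), RedsTo C.π (C.e1 u) w →
    RedsTo C.π (C.e1 (sM u)) (coeffMap (resHom C s hs) w)
  red_sF : ∀ (l : Fin 3) (g : C.F) (w : LaurentSeries C.k), RedsTo C.π (C.e3 l g) w →
    RedsTo C.π (C.e3 l (sF g)) (coeffMap (resHom C s hs) w)
  isSig : IsSig (C.geom h49) (sF.trans sF) (sR.trans sR)

end Fermat.Agent.RIB
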