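import Fermat.Agent.RIB.Ctrl.Kap.Grp
import Fermat.Agent.RIB.Ctrl.Kap.Tot
import Fermat.Agent.RIB.Ctrl.Kap.Inj
import Fermat.Agent.RIB.Ctrl.Kap.Ker
import Fermat.Agent.RIB.Ctrl.Kap.Iota
import Fermat.Agent.RIB.Ctrl.Sig.ModSig
import Fermat.Agent.RIB.Ctrl.MainAbs
import Fermat.Agent.RIB.Lift.Ctx

/-!
# RIB / CTRL / Kap : the relation `Kap C m` satisfies `KapHyp` (the hypotheses of `ctrl_main`, `ctrl_theta`)
-/

set_option autoImplicit false
set_option linter.unusedSectionVars false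

noncomputable section

open AlgebraicCurve ModularCurve

namespace Fermat.Agent.RIB

open Fermat.Agent.S36 Fermat.Agent.S24 Fermat.Agent.RED.Gauss
open Fermat.Agent.RED (GQ)

variable (C : S36.Ctx) {m : ℕ}

/-- **[CTRL-KAP]** -/
theorem kapHyp_kap (h49 : Fermat.Agent.RED.aux C.q ∣ C.M)
    (s : GQ) (hF : C.A.IsFrobeniusAt s C.q) (hζ : s (C.ζ : Kb) = C.ζ) (hm : m.Coprime C.q) :
    KapHyp (C.A.inertiaSubgroupIn ℚ) s m C.q (iot C.M C.q) (Kap C m) := by
  have hm0 : m ≠ 0 := by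
    rintro rfl
    rw [Nat.coprime_zero_left] at hm
    exact C.hq.one_lt.ne' hm
  have hR : ReductionInputsModL C.A C.M := ctx_reductionInputs C (C.h49_of_aux h49)
  set S := modSig C s h49 hF hζ with hS
  refine ⟨Kap.zero C m, Kap.add, Kap.neg, Kap.smul S hR, fun x hx hI => ?_, fun y _ h => kap_inj h49 hR hm h,
    fun x _ _ h => kap_ker S hF hm h, fun v hv => ?_⟩
  · obtain ⟨y, hy⟩ := kap_tot S (liftTors C (C.h49_of_aux h49) hm) hm0 x hx hI
    exact ⟨y, hy.nsmul_right, hy⟩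
  · have h := kap_iota S hF hR hm v hv
    rw [iota_apply] at h
    convert h using 1
    funext l
    fin_cases l <;>
      simp [nT, Fin.sum_univ_three, sq, mul_smul]

end Fermat.Agent.RIB
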