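import Fermat.Agent.RIB.Ctrl.Kap.Hyp
import Fermat.Agent.RIB.Ctrl.Theta
import Fermat.Agent.RIB.Ctrl.Sig.Corr

/-!
# RIB / CTRL : the final concrete form of (CTRL)

`L` rigid (`aux l ∣ L`), `l ∤ L` prime, `A | l`, `I = I_A`, `p ≠ l`, `p ∣ l - 1`, `p ∤ a² - 4`.  If `s² - a s + l` is nilpotent on
`thetaPart L` and on the `I`-fixed part of `thetaPart (L l l)` for the Frobenius lifts `s` at `A`, then

* every `I`-fixed `x ∈ thetaPart (L l l)` is `iota L l v` with `v i ∈ thetaPart L`;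
* `iota L l` is injective on `(thetaPart L)³`.
-/

set_option autoImplicit false
set_option linter.unusedSectionVars false

noncomputable section

open AlgebraicCurve ModularCurve

namespace Fermat.Agent.RIB

open Fermat.Agent.S36 Fermat.Agent.S24 Fermat.Agent.RED.Gauss
open Fermat.Agent.RED (GQ)

theorem conj_mem_inertia_kap {A : ValuationSubring Kb} {σ τ : GQ} (hσ : σ ∈ A.inertiaSubgroupIn ℚ)
    (hτ : τ ∈ A.decompositionSubgroup ℚ) : τ⁻¹ * σ * τ ∈ A.inertiaSubgroupIn ℚ := by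
  obtain ⟨s, hs, rfl⟩ := hσ
  have hn : (A.inertiaSubgroup ℚ).Normal := by
    unfold ValuationSubring.inertiaSubgroup
    infer_instance
  have := hn.conj_mem s hs (⟨τ, hτ⟩ : A.decompositionSubgroup ℚ)⁻¹
  refine ⟨_, this, ?_⟩
  simp

/-- the context attached to `(L, l, A)` -/
theorem exists_ctx (L l : ℕ) [NeZero L] (hl : l.Prime) (hlL : ¬ l ∣ L) (A : ValuationSubring Kb)
    (hA : A.LiesOverPrime l) : ∃ C : S36.Ctx, C.A = A ∧ C.q = l ∧ C.M = L := by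
  have : NeZero l := ⟨hl.ne_zero⟩
  obtain ⟨ζ, hζ⟩ := HasEnoughRootsOfUnity.exists_primitiveRoot Kb l
  have hζ0 : ζ ≠ 0 := hζ.ne_zero hl.ne_zero
  exact ⟨{ A := A, q := l, M := L, hq := hl, hA := hA, hM := NeZero.ne L, hqM := hlL
           ζ := Units.mk0 ζ hζ0
           hζ := by rw [← IsPrimitiveRoot.coe_units_iff]; exact hζ }, rfl, rfl, rfl⟩

/-- **(CTRL)** on a context, for one Frobenius lift fixing `ζ_q`. -/
theorem ctrl_ctx (C : S36.Ctx) (h49 : Fermat.Agent.RED.aux C.q ∣ C.M) (p : ℕ) (hp : p.Prime)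
    (hpq : p ≠ C.q) (S : Set ℕ) (θ : ℕ → ℤ)
    (hS : ∀ r : ℕ, r.Prime → r ∉ S → ¬ r ∣ C.M * C.q * C.q * p)
    (a : ℤ) (hl : (p : ℤ) ∣ (C.q : ℤ) - 1) (ha : IsCoprime (p : ℤ) (a ^ 2 - 4))
    (s : GQ) (hF : C.A.IsFrobeniusAt s C.q) (hζ : s (C.ζ : Kb) = C.ζ)
    (nilX : ∀ x ∈ thetaPart (C.M * C.q * C.q) p S θ, (∀ τ ∈ C.A.inertiaSubgroupIn ℚ, τ • x = x) →
      ∃ N : ℕ, (frobP (JZero (C.M * C.q * C.q)) s a C.q ^ N) x = 0)
    (nilY : ∀ y ∈ thetaPart C.M p S θ, ∃ N : ℕ, (frobP (JZero C.M) s a C.q ^ N) y = 0) :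
    (∀ x ∈ thetaPart (C.M * C.q * C.q) p S θ, (∀ τ ∈ C.A.inertiaSubgroupIn ℚ, τ • x = x) →
      ∃ v : Fin 3 → JZero C.M, (∀ i, v i ∈ thetaPart C.M p S θ) ∧ iota C.M C.q v = x) ∧
    (∀ v : Fin 3 → JZero C.M, (∀ i, v i ∈ thetaPart C.M p S θ) → iota C.M C.q v = 0 → v = 0) := by
  have hcop : ∀ k : ℕ, (p ^ k).Coprime C.q := fun k =>
    Nat.Coprime.pow_left k ((Nat.coprime_primes hp C.hq).mpr hpq)
  exact ctrl_theta C.M C.q p S θ hS (C.A.inertiaSubgroupIn ℚ) s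
    (fun τ hτ => conj_mem_inertia_kap hτ hF.mem_decompositionSubgroup) a hl ha
    (fun k y hy => inertia_fixed_levelM (ctx_reductionInputs C (C.h49_of_aux h49)) (hcop k) hy)
    (fun k => ⟨Kap C (p ^ k), kapHyp_kap C h49 s hF hζ (hcop k)⟩) nilX nilY

/-- **(CTRL)**, final form. -/
theorem ctrl_final (L l p : ℕ) [NeZero L] [NeZero l] (hl : l.Prime) (hlL : ¬ l ∣ L)
    (h49 : Fermat.Agent.RED.aux l ∣ L) (hp : p.Prime) (hpl : p ≠ l)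
    (A : ValuationSubring Kb) (hA : A.LiesOverPrime l) (S : Set ℕ) (θ : ℕ → ℤ)
    (hS : ∀ r : ℕ, r.Prime → r ∉ S → ¬ r ∣ L * l * l * p)
    (a : ℤ) (hl1 : (p : ℤ) ∣ (l : ℤ) - 1) (ha : IsCoprime (p : ℤ) (a ^ 2 - 4))
    (nilX : ∀ s : GQ, A.IsFrobeniusAt s l → ∀ x ∈ thetaPart (L * l * l) p S θ,
      (∀ τ ∈ A.inertiaSubgroupIn ℚ, τ • x = x) →
      ∃ N : ℕ, (frobP (JZero (L * l * l)) s a l ^ N) x = 0)
    (nilY : ∀ s : GQ, A.IsFrobeniusAt s l → ∀ y ∈ thetaPart L p S θ,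
      ∃ N : ℕ, (frobP (JZero L) s a l ^ N) y = 0) :
    (∀ x ∈ thetaPart (L * l * l) p S θ, (∀ τ ∈ A.inertiaSubgroupIn ℚ, τ • x = x) →
      ∃ v : Fin 3 → JZero L, (∀ i, v i ∈ thetaPart L p S θ) ∧ iota L l v = x) ∧
    (∀ v : Fin 3 → JZero L, (∀ i, v i ∈ thetaPart L p S θ) → iota L l v = 0 → v = 0) := by
  obtain ⟨C, rfl, rfl, rfl⟩ := exists_ctx L l hl hlL A hA
  obtain ⟨s, hF, hfix⟩ := exists_isFrobeniusAt_fix_root C.hq C.A C.hA
  have hζ : s (C.ζ : Kb) = C.ζ := hfix _ (by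
    have := congrArg Units.val C.hζ.pow_eq_one
    rwa [Units.val_pow_eq_pow_val, Units.val_one] at this)
  exact ctrl_ctx C h49 p hp hpl S θ hS a hl1 ha s hF hζ (nilX s hF) (nilY s hF)

end Fermat.Agent.RIB
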