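import Fermat.Agent.RIB.Ctrl.Kap.RelAlg
import Fermat.Agent.RIB.Ctrl.Kap.Dict

/-!
# RIB / CTRL / Kap : `(K0)` the relation `Kap` is a subgroup, stable under the decomposition group
-/

set_option autoImplicit false
set_option linter.unusedSectionVars false

noncomputable section

open AlgebraicCurve ModularCurve

namespace Fermat.Agent.RIB

open Fermat.Agent.S36 Fermat.Agent.S24 Fermat.Agent.RED.Gauss
open Fermat.Agent.RED (GQ)

variable {C : S36.Ctx} {m : ℕ}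

theorem Kap.nsmul_left {x : JZero (C.M * C.q * C.q)} {y : Fin 3 → JZero C.M} (h : Kap C m x y) :
    m • x = 0 := by
  obtain ⟨g, hg, -⟩ := h
  exact hg.nsmul_eq_zero

theorem Kap.nsmul_right {x : JZero (C.M * C.q * C.q)} {y : Fin 3 → JZero C.M} (h : Kap C m x y)
    (l : Fin 3) : m • y l = 0 := by
  obtain ⟨g, -, hg⟩ := h
  obtain ⟨w, -, hw⟩ := hg l
  exact hw.1

theorem Kap.inertia_fixed (hm : m ≠ 0) {x : JZero (C.M * C.q * C.q)} {y : Fin 3 → JZero C.M}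
    (h : Kap C m x y) : ∀ τ ∈ C.A.inertiaSubgroupIn ℚ, τ • x = x := by
  obtain ⟨g, hg, -⟩ := h
  exact hg.inertia_fixed hm

theorem Kap.zero (C : S36.Ctx) (m : ℕ) : Kap C m 0 0 := by
  refine ⟨1, ?_, fun l => ⟨1, ?_, KRel.one C⟩⟩
  · rw [map_one]
    exact Kum.zero
  · rw [map_one]
    exact redsTo_one

theorem Kap.add {x x' : JZero (C.M * C.q * C.q)} {y y' : Fin 3 → JZero C.M} (h : Kap C m x y)
    (h' : Kap C m x' y') : Kap C m (x + x') (y + y') := by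
  obtain ⟨g, hg, hl⟩ := h
  obtain ⟨g', hg', hl'⟩ := h'
  refine ⟨g * g', ?_, fun l => ?_⟩
  · rw [map_mul]
    exact hg.add hg'
  · obtain ⟨w, hw, hk⟩ := hl l
    obtain ⟨w', hw', hk'⟩ := hl' l
    refine ⟨w * w', ?_, hk.mul hk'⟩
    rw [map_mul]
    exact hw.mul hw'

theorem Kap.neg {x : JZero (C.M * C.q * C.q)} {y : Fin 3 → JZero C.M} (h : Kap C m x y) :
    Kap C m (-x) (-y) := by
  obtain ⟨g, hg, hl⟩ := h
  refine ⟨g⁻¹, ?_, fun l => ?_⟩
  · rw [map_inv₀]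
    exact hg.neg
  · obtain ⟨w, hw, hk⟩ := hl l
    refine ⟨w⁻¹, ?_, hk.inv⟩
    rw [map_inv₀]
    exact hw.inv (fun h0 => hk.2.1 (Subtype.ext h0))

theorem Kap.sub {x x' : JZero (C.M * C.q * C.q)} {y y' : Fin 3 → JZero C.M} (h : Kap C m x y)
    (h' : Kap C m x' y') : Kap C m (x - x') (y - y') := by
  rw [sub_eq_add_neg, sub_eq_add_neg]
  exact h.add h'.neg

/-- stability under the decomposition group -/
theorem Kap.smul {h49 : Fermat.Agent.RED.aux C.q ∣ C.M} {s : GQ}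
    {hs : s ∈ C.A.decompositionSubgroup ℚ} (S : ModSig C h49 s hs)
    (hR : ReductionInputsModL C.A C.M) {x : JZero (C.M * C.q * C.q)} {y : Fin 3 → JZero C.M}
    (h : Kap C m x y) : Kap C m (s • x) (fun l => s • y l) := by
  obtain ⟨g, hg, hl⟩ := h
  refine ⟨S.sF g, ?_, fun l => ?_⟩
  · rw [S.emb_sF]
    exact hg.gal_smul s
  · obtain ⟨w, hw, hk⟩ := hl l
    exact ⟨_, S.red_sF l g _ hw, hk.smul hR s hs⟩

end Fermat.Agent.RIB
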